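import Mathlib
import Fermat.Prelude.Def_AlgebraicCurve_Correspondence
import Fermat.Prelude.Def_ModularCurve_HeckeOperator
import Fermat.Prelude.Thm_ModularCurve_coeffMap_qExpand

/-!
# S37, leaf (Gal), part (a)+(b): Galois vs. correspondences at DIVISOR level

(a) GENERIC. `φ : F →ₐ[K] F'` integral, `g : SemilinearAut K F`, `g' : SemilinearAut K F'`
intertwining `φ` (`g' • φ x = φ (g • x)`).  Then restriction of places, ramification indices and
inertia degrees along `φ` are equivariant, hence so are `Divisor.pullbackAlong` and
`Divisor.pushforwardAlong`, hence every `Divisor.correspondence`.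

(b) MODULAR. The arithmetic Galois action (coefficientwise on `q`-expansions) intertwines the two
degeneracy maps `heckeAlphaBar`, `heckeBetaBar`, so it commutes with `heckeDivBar`.
-/

set_option autoImplicit false

noncomputable section

open AlgebraicCurve

namespace Fermat.Agent.S37.Galois

open scoped Pointwise

section Generic

variable {K F F' : Type*} [Field K] [Field F] [Field F'] [Algebra K F] [Algebra K F']
variable (φ : F →ₐ[K] F') (hφ : φ.toRingHom.IsIntegral)
variable {g : SemilinearAut K F} {g' : SemilinearAut K F'}

/-- Membership in the valuation subring of the restricted place. -/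
theorem mem_restrictAlong_iff (w : Place K F') (x : F) :
    x ∈ (w.restrictAlong φ hφ).toValuationSubring ↔ φ x ∈ w.toValuationSubring :=
  Iff.rfl

/-- Restriction of places along `φ` is equivariant. -/
theorem restrictAlong_smul (h : SemilinearAut.IntertwinesAlong φ.toRingHom g g')
    (w : Place K F') :
    (g' • w).restrictAlong φ hφ = g • w.restrictAlong φ hφ := by
  refine Place.ext (SetLike.ext fun x => ?_)
  rw [mem_restrictAlong_iff, SemilinearAut.smul_toValuationSubring,
    SemilinearAut.smul_toValuationSubring,
    ValuationSubring.mem_pointwise_smul_iff_inv_smul_mem,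
    ValuationSubring.mem_pointwise_smul_iff_inv_smul_mem, mem_restrictAlong_iff]
  have hx := h.inv x
  simp only [AlgHom.toRingHom_eq_coe, RingHom.coe_coe] at hx
  rw [hx]

/-- `ord` of a pulled-back function at a translated place. -/
theorem ord_smul_apply (h : SemilinearAut.IntertwinesAlong φ.toRingHom g g')
    (w : Place K F') (f : F) :
    (g' • w).ord (φ f) = w.ord (φ (g⁻¹ • f)) := by
  have h1 := h.inv f
  simp only [AlgHom.toRingHom_eq_coe, RingHom.coe_coe] at h1
  rw [← h1]
  have h2 := SemilinearAut.ord_smul g' w (g'⁻¹ • φ f)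
  rwa [smul_inv_smul] at h2

/-- Ramification indices along `φ` are invariant. -/
theorem ramificationIndexAlong_smul (h : SemilinearAut.IntertwinesAlong φ.toRingHom g g')
    (w : Place K F') :
    (g' • w).ramificationIndexAlong φ = w.ramificationIndexAlong φ := by
  unfold Place.ramificationIndexAlong Place.ramificationIndex
  congr 1
  ext n
  simp only [Set.mem_ofPred_eq]
  constructor
  · rintro ⟨hn, f, hf, hfn⟩
    refine ⟨hn, g⁻¹ • f, ?_, ?_⟩
    · simpa using hf
    · have := ord_smul_apply φ h w f
      exact this ▸ hfn
  · rintro ⟨hn, f, hf, hfn⟩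
    refine ⟨hn, g • f, ?_, ?_⟩
    · simpa using hf
    · have := ord_smul_apply φ h w (g • f)
      rw [inv_smul_smul] at this
      exact this.trans hfn

end Generic

section InertiaDeg

variable {K F F' : Type*} [Field K] [Field F] [Field F'] [Algebra K F] [Algebra K F']
variable (φ : F →ₐ[K] F') (hφ : φ.toRingHom.IsIntegral)
variable {g : SemilinearAut K F} {g' : SemilinearAut K F'}

theorem mem_restrictAlong_smul_iff (h : SemilinearAut.IntertwinesAlong φ.toRingHom g g')
    (w : Place K F') (x : F) :
    x ∈ ((g' • w).restrictAlong φ hφ).toValuationSubring ↔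
      g⁻¹ • x ∈ (w.restrictAlong φ hφ).toValuationSubring := by
  rw [restrictAlong_smul φ hφ h, SemilinearAut.smul_toValuationSubring,
    ValuationSubring.mem_pointwise_smul_iff_inv_smul_mem]

/-- The ring isomorphism between the valuation rings of `w|_F` and `(g' • w)|_F` induced by `g`. -/
def restrictSMulEquiv (h : SemilinearAut.IntertwinesAlong φ.toRingHom g g') (w : Place K F') :
    (w.restrictAlong φ hφ).toValuationSubring ≃+*
      ((g' • w).restrictAlong φ hφ).toValuationSubring where
  toFun x := ⟨g • (x : F), by
    rw [mem_restrictAlong_smul_iff φ hφ h, inv_smul_smul]; exact x.2⟩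
  invFun y := ⟨g⁻¹ • (y : F), (mem_restrictAlong_smul_iff φ hφ h w _).mp y.2⟩
  left_inv x := by ext; simp
  right_inv y := by ext; simp
  map_mul' x y := by ext; simp
  map_add' x y := by ext; simp

@[simp]
theorem coe_restrictSMulEquiv_apply (h : SemilinearAut.IntertwinesAlong φ.toRingHom g g')
    (w : Place K F') (x : (w.restrictAlong φ hφ).toValuationSubring) :
    ((restrictSMulEquiv φ hφ h w x : ((g' • w).restrictAlong φ hφ).toValuationSubring) : F)
      = g • (x : F) := rfl

/-- Inertia degrees along `φ` are invariant. -/
theorem inertiaDegAlong_smul (h : SemilinearAut.IntertwinesAlong φ.toRingHom g g')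
    (w : Place K F') :
    (g' • w).inertiaDegAlong φ hφ = w.inertiaDegAlong φ hφ := by
  let _ := algebraAlong φ
  have := isScalarTower_along φ
  have := isIntegral_along φ hφ
  show Module.finrank ((g' • w).restrict F).ResidueField (g' • w).ResidueField
    = Module.finrank (w.restrict F).ResidueField w.ResidueField
  symm
  refine Algebra.finrank_eq_of_equiv_equiv
    (IsLocalRing.ResidueField.mapEquiv (restrictSMulEquiv φ hφ h w))
    (SemilinearAut.smulResidueRingEquiv g' w) ?_
  refine RingHom.ext fun x => ?_
  obtain ⟨a, rfl⟩ := IsLocalRing.residue_surjective x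
  have h1 : (IsLocalRing.ResidueField.mapEquiv (restrictSMulEquiv φ hφ h w))
      (IsLocalRing.residue _ a) = IsLocalRing.residue _ (restrictSMulEquiv φ hφ h w a) := by
    rw [IsLocalRing.ResidueField.mapEquiv_apply]
    exact IsLocalRing.ResidueField.map_residue _ _
  have h2 : ∀ b : w.toValuationSubring,
      SemilinearAut.smulResidueRingEquiv g' w (IsLocalRing.residue _ b)
        = IsLocalRing.residue _ (SemilinearAut.smulValuationSubringEquiv g' w.toValuationSubring b) := by
    intro b
    unfold SemilinearAut.smulResidueRingEquiv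
    rw [IsLocalRing.ResidueField.mapEquiv_apply]
    exact IsLocalRing.ResidueField.map_residue _ _
  have h3 : Place.restrictResidueMap F (g' • w)
      (IsLocalRing.residue _ (restrictSMulEquiv φ hφ h w a))
      = IsLocalRing.residue _ (Place.restrictInclusion F (g' • w) (restrictSMulEquiv φ hφ h w a)) :=
    Place.restrictResidueMap_residue (F := F) (g' • w) (restrictSMulEquiv φ hφ h w a)
  have h4 : Place.restrictResidueMap F w (IsLocalRing.residue _ a)
      = IsLocalRing.residue _ (Place.restrictInclusion F w a) :=
    Place.restrictResidueMap_residue (F := F) w a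
  have h5 : Place.restrictInclusion F (g' • w) (restrictSMulEquiv φ hφ h w a)
      = SemilinearAut.smulValuationSubringEquiv g' w.toValuationSubring
          (Place.restrictInclusion F w a) := by
    ext
    have hx := h (a : F)
    simp only [AlgHom.toRingHom_eq_coe, RingHom.coe_coe] at hx
    exact hx.symm
  exact ((congrArg (Place.restrictResidueMap F (g' • w)) h1).trans h3).trans
    ((congrArg (IsLocalRing.residue _) h5).trans
      ((h2 _).symm.trans (congrArg (SemilinearAut.smulResidueRingEquiv g' w) h4.symm)))

end InertiaDeg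

section Divisors

variable {K F F' : Type*} [Field K] [Field F] [Field F'] [Algebra K F] [Algebra K F']
variable (φ : F →ₐ[K] F') (hφ : φ.toRingHom.IsIntegral)
variable {g : SemilinearAut K F} {g' : SemilinearAut K F'}

/-- **Pull-back of divisors is equivariant** for a pair of semilinear automorphisms intertwining
`φ`. -/
theorem pullbackAlong_smul [HasPrincipalDivisors K F']
    (h : SemilinearAut.IntertwinesAlong φ.toRingHom g g') (D : Divisor K F) :
    g' • Divisor.pullbackAlong φ hφ D = Divisor.pullbackAlong φ hφ (g • D) := by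
  refine Finsupp.ext fun w => ?_
  rw [SemilinearAut.divisor_smul_apply, Divisor.pullbackAlong_apply, Divisor.pullbackAlong_apply,
    SemilinearAut.divisor_smul_apply, ramificationIndexAlong_smul φ h.inv,
    restrictAlong_smul φ hφ h.inv]

/-- **Push-forward of divisors is equivariant** for a pair of semilinear automorphisms
intertwining `φ`. -/
theorem pushforwardAlong_smul
    (h : SemilinearAut.IntertwinesAlong φ.toRingHom g g') (D' : Divisor K F') :
    g • Divisor.pushforwardAlong φ hφ D' = Divisor.pushforwardAlong φ hφ (g' • D') := by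
  induction D' using Finsupp.induction with
  | zero => simp
  | single_add w n D _ _ ih =>
    rw [map_add, smul_add, smul_add, map_add, ih, Divisor.pushforwardAlong_single,
      SemilinearAut.smul_single, SemilinearAut.smul_single, Divisor.pushforwardAlong_single,
      restrictAlong_smul φ hφ h, inertiaDegAlong_smul φ hφ h]

/-- **Correspondences are equivariant**: if `(g, g')` intertwines both legs `φ`, `ψ`, then `g`
commutes with the correspondence `ψ_* ∘ φ^*` on divisors. -/
theorem correspondence_smul [HasPrincipalDivisors K F'] (ψ : F →ₐ[K] F')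
    (hψ : ψ.toRingHom.IsIntegral)
    (hφg : SemilinearAut.IntertwinesAlong φ.toRingHom g g')
    (hψg : SemilinearAut.IntertwinesAlong ψ.toRingHom g g') (D : Divisor K F) :
    g • Divisor.correspondence φ ψ hφ hψ D = Divisor.correspondence φ ψ hφ hψ (g • D) := by
  rw [Divisor.correspondence_apply, Divisor.correspondence_apply,
    pushforwardAlong_smul ψ hψ hψg, pullbackAlong_smul φ hφ hφg]

end Divisors

section Pic0Level

variable {K F F' : Type*} [Field K] [Field F] [Field F'] [Algebra K F] [Algebra K F']
variable [HasPrincipalDivisors K F']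
variable (φ ψ : F →ₐ[K] F') (hφ : φ.toRingHom.IsIntegral) (hψ : ψ.toRingHom.IsIntegral)
variable (hFI : FundamentalIdentityAlong K φ hφ)
variable (hfin : FiniteAlong K ψ) (hN : NormFormulaAlong K ψ hfin)
variable {g : SemilinearAut K F} {g' : SemilinearAut K F'}

/-- The `Pic⁰`-level correspondence commutes with a pair of semilinear automorphisms
intertwining both legs. -/
theorem pic0_correspondence_smul
    (hφg : SemilinearAut.IntertwinesAlong φ.toRingHom g g')
    (hψg : SemilinearAut.IntertwinesAlong ψ.toRingHom g g') (x : Pic0 K F) :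
    g • Pic0.correspondence φ ψ hφ hψ hFI hfin hN x
      = Pic0.correspondence φ ψ hφ hψ hFI hfin hN (g • x) := by
  obtain ⟨D, rfl⟩ := Pic0.mk_surjective x
  rw [Pic0.correspondence_mk, SemilinearAut.pic0_smul_mk, SemilinearAut.pic0_smul_mk,
    Pic0.correspondence_mk]
  exact congrArg Pic0.mk (Subtype.ext (correspondence_smul φ hφ ψ hψ hφg hψg (D : Divisor K F)))

end Pic0Level

section Modular

open ModularCurve

variable {L : Type*} [Field L] [Algebra ℚ L]

/-- The arithmetic Galois action intertwines every inclusion of base-changed `q`-expansion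
fields (both are "apply `σ` to the coefficients"). -/
theorem intertwines_inclusion {F₀ F₁ : IntermediateField ℚ (LaurentSeries ℚ)}
    (h : laurentBaseChange L F₀ ≤ laurentBaseChange L F₁) (σ : L ≃ₐ[ℚ] L) :
    SemilinearAut.IntertwinesAlong (IntermediateField.inclusion h).toRingHom
      (arithmeticGalois F₀ σ) (arithmeticGalois F₁ σ) := by
  intro x
  exact Subtype.ext rfl

variable (N ℓ : ℕ) [NeZero N] [NeZero ℓ]

/-- The arithmetic Galois action intertwines the degeneracy map `α` (inclusion). -/
theorem intertwines_heckeAlphaBar (σ : L ≃ₐ[ℚ] L) :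
    SemilinearAut.IntertwinesAlong (heckeAlphaBar L N ℓ).toRingHom
      (arithmeticGalois (modularFunctionFieldFull N) σ)
      (arithmeticGalois (modularFunctionFieldFull (N * ℓ)) σ) :=
  intertwines_inclusion _ σ

omit [NeZero N] in
/-- The arithmetic Galois action intertwines the degeneracy map `β` (`q ↦ q^ℓ`). -/
theorem intertwines_heckeBetaBar (σ : L ≃ₐ[ℚ] L) :
    SemilinearAut.IntertwinesAlong (heckeBetaBar L N ℓ).toRingHom
      (arithmeticGalois (modularFunctionFieldFull N) σ)
      (arithmeticGalois (modularFunctionFieldFull (N * ℓ)) σ) := by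
  intro x
  refine Subtype.ext ?_
  show coeffMap (σ : L →+* L) (qExpand L ℓ (x : LaurentSeries L))
    = qExpand L ℓ (coeffMap (σ : L →+* L) (x : LaurentSeries L))
  exact ModularCurve.coeffMap_qExpand _ ℓ _

variable {N ℓ}
variable (hα : HeckeAlphaBarIntegral L N ℓ) (hβ : HeckeBetaBarIntegral L N ℓ)
variable [HasPrincipalDivisors L (laurentBaseChange L (modularFunctionFieldFull (N * ℓ)))]

/-- **Galois commutes with the Hecke correspondence on divisors.** -/
theorem heckeDivBar_smul (σ : L ≃ₐ[ℚ] L)
    (D : Divisor L (laurentBaseChange L (modularFunctionFieldFull N))) :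
    arithmeticGalois (modularFunctionFieldFull N) σ • heckeDivBar hα hβ D
      = heckeDivBar hα hβ (arithmeticGalois (modularFunctionFieldFull N) σ • D) :=
  correspondence_smul (heckeBetaBar L N ℓ) hβ (heckeAlphaBar L N ℓ) hα
    (intertwines_heckeBetaBar N ℓ σ) (intertwines_heckeAlphaBar N ℓ σ) D

/-- **Galois commutes with the transposed Hecke correspondence on divisors.** -/
theorem heckeDivBarTranspose_smul (σ : L ≃ₐ[ℚ] L)
    (D : Divisor L (laurentBaseChange L (modularFunctionFieldFull N))) :
    arithmeticGalois (modularFunctionFieldFull N) σ • heckeDivBarTranspose hα hβ D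
      = heckeDivBarTranspose hα hβ (arithmeticGalois (modularFunctionFieldFull N) σ • D) :=
  correspondence_smul (heckeAlphaBar L N ℓ) hα (heckeBetaBar L N ℓ) hβ
    (intertwines_heckeAlphaBar N ℓ σ) (intertwines_heckeBetaBar N ℓ σ) D

/-- **Galois commutes with the Hecke operator on `Pic⁰`.** -/
theorem heckePic0Bar_smul
    (hFI : FundamentalIdentityAlong L (heckeBetaBar L N ℓ) hβ)
    (hfin : FiniteAlong L (heckeAlphaBar L N ℓ))
    (hN : NormFormulaAlong L (heckeAlphaBar L N ℓ) hfin) (σ : L ≃ₐ[ℚ] L)
    (x : Pic0 L (laurentBaseChange L (modularFunctionFieldFull N))) :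
    σ • heckePic0Bar hα hβ hFI hfin hN x = heckePic0Bar hα hβ hFI hfin hN (σ • x) :=
  pic0_correspondence_smul (heckeBetaBar L N ℓ) (heckeAlphaBar L N ℓ) hβ hα hFI hfin hN
    (intertwines_heckeBetaBar N ℓ σ) (intertwines_heckeAlphaBar N ℓ σ) x

/-- **Galois commutes with the transposed Hecke operator on `Pic⁰`.** -/
theorem heckePic0BarTranspose_smul
    (hFI : FundamentalIdentityAlong L (heckeAlphaBar L N ℓ) hα)
    (hfin : FiniteAlong L (heckeBetaBar L N ℓ))
    (hN : NormFormulaAlong L (heckeBetaBar L N ℓ) hfin) (σ : L ≃ₐ[ℚ] L)
    (x : Pic0 L (laurentBaseChange L (modularFunctionFieldFull N))) :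
    σ • heckePic0BarTranspose hα hβ hFI hfin hN x
      = heckePic0BarTranspose hα hβ hFI hfin hN (σ • x) :=
  pic0_correspondence_smul (heckeAlphaBar L N ℓ) (heckeBetaBar L N ℓ) hα hβ hFI hfin hN
    (intertwines_heckeAlphaBar N ℓ σ) (intertwines_heckeBetaBar N ℓ σ) x

end Modular

end Fermat.Agent.S37.Galois
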