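import Mathlib
import Fermat.Prelude.Def_ModularCurve_LaurentCoeff
import Fermat.Prelude.Def_FLTPrelim_Ramification
import Fermat.Prelude.Def_EllipticCurve_FrobeniusTrace
import Fermat.Prelude.Def_ModularCurve_ArithmeticGalois
import Fermat.Prelude.Def_ModularCurve_X0ModL
import Fermat.Prelude.Def_AlgebraicCurve_Correspondence

/-!
# S37, leaf (Gal), parts (c)+(d): Galois vs. reduction of `q`-expansions

(c) `A` a valuation subring of `L ⊇ K`.  An element `σ` of the decomposition group of `A` acts on
`A`, hence coefficientwise on `LaurentSeries A` (`conjSeries`).  This is compatible with the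
coefficientwise action of `σ` on `LaurentSeries L`; after reduction mod `𝔪_A` it becomes the
identity for `σ` in the inertia group and the coefficientwise Frobenius for a Frobenius lift.

(d) For ANY ring automorphism `f` of a field `k`, `coeffMap f` preserves the mod-`ℓ` modular
function field `modularFunctionFieldFullC k n` (its generators have coefficients in the prime
ring), giving a group homomorphism `(k ≃+* k) →* SemilinearAut k (modularFunctionFieldFullC k n)`;
for `k` perfect of characteristic `ℓ` the Frobenius gives `frobeniusAut`.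
-/

set_option autoImplicit false

noncomputable section

open AlgebraicCurve ModularCurve IsLocalRing

namespace Fermat.Agent.S37.Galois

open scoped Pointwise

section Reduction

variable {K L : Type*} [Field K] [Field L] [Algebra K L] (A : ValuationSubring L)

/-- The ring endomorphism of `A` induced by an element of its decomposition group. -/
def decompHom (σ : A.decompositionSubgroup K) : A →+* A :=
  MulSemiringAction.toRingHom (A.decompositionSubgroup K) A σ

@[simp]
theorem coe_decompHom_apply (σ : A.decompositionSubgroup K) (a : A) :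
    ((decompHom A σ a : A) : L) = (σ : L ≃ₐ[K] L) (a : L) :=
  rfl

theorem subtype_comp_decompHom (σ : A.decompositionSubgroup K) :
    A.subtype.comp (decompHom A σ) = (((σ : L ≃ₐ[K] L) : L →+* L)).comp A.subtype :=
  RingHom.ext fun _ => rfl

theorem residue_decompHom (σ : A.decompositionSubgroup K) (a : A) :
    residue A (decompHom A σ a) = σ • residue A a :=
  IsLocalRing.ResidueField.residue_smul (A.decompositionSubgroup K) σ a

/-- Coefficientwise action of the decomposition group on `A((q))`. -/
def conjSeries (σ : A.decompositionSubgroup K) : LaurentSeries A →+* LaurentSeries A :=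
  coeffMap (decompHom A σ)

@[simp]
theorem conjSeries_coeff (σ : A.decompositionSubgroup K) (y : LaurentSeries A) (n : ℤ) :
    (conjSeries A σ y).coeff n = decompHom A σ (y.coeff n) :=
  rfl

/-- `conjSeries` lifts the coefficientwise action of `σ` on `L((q))`. -/
theorem coeffMap_subtype_conjSeries (σ : A.decompositionSubgroup K) (y : LaurentSeries A) :
    coeffMap A.subtype (conjSeries A σ y)
      = coeffMap ((σ : L ≃ₐ[K] L) : L →+* L) (coeffMap A.subtype y) := by
  rw [conjSeries, coeffMap_coeffMap, coeffMap_coeffMap, subtype_comp_decompHom]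

/-- Elements of the inertia group act trivially on the residue field. -/
theorem smul_residueField_of_mem_inertia {τ : A.decompositionSubgroup K}
    (hτ : τ ∈ A.inertiaSubgroup K) (x : ResidueField A) : τ • x = x := by
  have h : MulSemiringAction.toRingAut (A.decompositionSubgroup K) (ResidueField A) τ = 1 := hτ
  exact congrArg (fun e : ResidueField A ≃+* ResidueField A => e x) h

/-- **Inertia acts trivially on reductions of `q`-expansions.** -/
theorem coeffMap_residue_conjSeries_of_mem_inertia {τ : A.decompositionSubgroup K}
    (hτ : τ ∈ A.inertiaSubgroup K) (y : LaurentSeries A) :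
    coeffMap (residue A) (conjSeries A τ y) = coeffMap (residue A) y := by
  ext n
  rw [coeffMap_coeff, coeffMap_coeff, conjSeries_coeff, residue_decompHom,
    smul_residueField_of_mem_inertia A hτ]

/-- **A Frobenius lift acts as the coefficientwise Frobenius on reductions of
`q`-expansions.** -/
theorem coeffMap_residue_conjSeries_of_isFrobeniusAt {Φ : L ≃ₐ[K] L} {ℓ : ℕ}
    [ExpChar (ResidueField A) ℓ] (h : A.IsFrobeniusAt Φ ℓ) (y : LaurentSeries A) :
    coeffMap (residue A) (conjSeries A ⟨Φ, h.mem_decompositionSubgroup⟩ y)
      = coeffMap (frobenius (ResidueField A) ℓ) (coeffMap (residue A) y) := by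
  ext n
  rw [coeffMap_coeff, coeffMap_coeff, coeffMap_coeff, conjSeries_coeff, residue_decompHom,
    h.smul_residue_eq, frobenius_def]

/-- Existential form for the inertia group (as a subgroup of `Gal(L/K)`). -/
theorem exists_lift_of_mem_inertiaSubgroupIn {σ : L ≃ₐ[K] L}
    (hσ : σ ∈ A.inertiaSubgroupIn K) (y : LaurentSeries A) :
    ∃ y' : LaurentSeries A,
      coeffMap A.subtype y' = coeffMap (σ : L →+* L) (coeffMap A.subtype y) ∧
      coeffMap (residue A) y' = coeffMap (residue A) y := by
  obtain ⟨τ, hτ, rfl⟩ := hσ
  exact ⟨conjSeries A τ y, coeffMap_subtype_conjSeries A τ y,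
    coeffMap_residue_conjSeries_of_mem_inertia A hτ y⟩

/-- Existential form for a Frobenius lift. -/
theorem exists_lift_of_isFrobeniusAt {Φ : L ≃ₐ[K] L} {ℓ : ℕ}
    [ExpChar (ResidueField A) ℓ] (h : A.IsFrobeniusAt Φ ℓ) (y : LaurentSeries A) :
    ∃ y' : LaurentSeries A,
      coeffMap A.subtype y' = coeffMap (Φ : L →+* L) (coeffMap A.subtype y) ∧
      coeffMap (residue A) y'
        = coeffMap (frobenius (ResidueField A) ℓ) (coeffMap (residue A) y) :=
  ⟨conjSeries A ⟨Φ, h.mem_decompositionSubgroup⟩ y,
    coeffMap_subtype_conjSeries A ⟨Φ, h.mem_decompositionSubgroup⟩ y,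
    coeffMap_residue_conjSeries_of_isFrobeniusAt A h y⟩

/-- The inertia group (in `Gal(L/K)`) is contained in the decomposition group. -/
theorem mem_decompositionSubgroup_of_mem_inertiaSubgroupIn {σ : L ≃ₐ[K] L}
    (hσ : σ ∈ A.inertiaSubgroupIn K) : σ ∈ A.decompositionSubgroup K := by
  obtain ⟨τ, _, rfl⟩ := hσ
  exact τ.2

/-- Frobenius on the residue field is bijective as soon as a Frobenius lift exists. -/
theorem frobenius_bijective_of_isFrobeniusAt {Φ : L ≃ₐ[K] L} {ℓ : ℕ}
    [ExpChar (ResidueField A) ℓ] (h : A.IsFrobeniusAt Φ ℓ) :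
    Function.Bijective (frobenius (ResidueField A) ℓ) := by
  refine ⟨(frobenius (ResidueField A) ℓ).injective, fun x => ?_⟩
  set τ : A.decompositionSubgroup K := ⟨Φ, h.mem_decompositionSubgroup⟩
  refine ⟨τ⁻¹ • x, ?_⟩
  rw [frobenius_def, ← h.smul_residue_eq, smul_inv_smul]

/-- The residue field is perfect as soon as a Frobenius lift exists. -/
theorem perfectRing_of_isFrobeniusAt {Φ : L ≃ₐ[K] L} {ℓ : ℕ}
    [ExpChar (ResidueField A) ℓ] (h : A.IsFrobeniusAt Φ ℓ) :
    PerfectRing (ResidueField A) ℓ :=
  ⟨frobenius_bijective_of_isFrobeniusAt A h⟩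

end Reduction

section GaloisOnIntegral

variable {L : Type*} [Field L] [Algebra ℚ L] (A : ValuationSubring L)
variable (F₀ : IntermediateField ℚ (LaurentSeries ℚ))

/-- If `x ∈ F₀ ⊗ L` has an `A`-integral `q`-expansion `y`, then `σ • x` (for `σ` in the
decomposition group of `A`) has the `A`-integral `q`-expansion `conjSeries A σ y`. -/
theorem coe_arithmeticGalois_smul_eq_coeffMap_conjSeries (σ : A.decompositionSubgroup ℚ)
    (x : laurentBaseChange L F₀) (y : LaurentSeries A)
    (hxy : (x : LaurentSeries L) = coeffMap A.subtype y) :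
    ((arithmeticGalois F₀ (σ : L ≃ₐ[ℚ] L) • x : laurentBaseChange L F₀) : LaurentSeries L)
      = coeffMap A.subtype (conjSeries A σ y) := by
  rw [coe_arithmeticGalois_smul, hxy, coeffMap_subtype_conjSeries]

/-- Membership form: `A`-integrality of `q`-expansions is preserved by the decomposition
group. -/
theorem coeffMap_subtype_conjSeries_mem (σ : A.decompositionSubgroup ℚ) (y : LaurentSeries A)
    (hy : coeffMap A.subtype y ∈ laurentBaseChange L F₀) :
    coeffMap A.subtype (conjSeries A σ y) ∈ laurentBaseChange L F₀ := by
  rw [coeffMap_subtype_conjSeries]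
  exact coeffMap_mem_laurentBaseChange (σ : L ≃ₐ[ℚ] L) hy

/-- `σ • ⟨y⟩ = ⟨conjSeries σ y⟩` in `F₀ ⊗ L`. -/
theorem arithmeticGalois_smul_mk (σ : A.decompositionSubgroup ℚ) (y : LaurentSeries A)
    (hy : coeffMap A.subtype y ∈ laurentBaseChange L F₀) :
    arithmeticGalois F₀ (σ : L ≃ₐ[ℚ] L) • (⟨coeffMap A.subtype y, hy⟩ : laurentBaseChange L F₀)
      = ⟨coeffMap A.subtype (conjSeries A σ y), coeffMap_subtype_conjSeries_mem A F₀ σ y hy⟩ :=
  Subtype.ext (coe_arithmeticGalois_smul_eq_coeffMap_conjSeries A F₀ σ _ y rfl)

end GaloisOnIntegral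

section CoeffAut

variable (k : Type*) [Field k] (n : ℕ)

/-- `coeffMap f` preserves the mod-`ℓ` modular function field, for every ring endomorphism `f`
of the constant field: the generators `j(q^d)` have coefficients in the prime ring. -/
theorem coeffMap_mem_modularFunctionFieldFullC (f : k →+* k) {x : LaurentSeries k}
    (hx : x ∈ modularFunctionFieldFullC k n) :
    coeffMap f x ∈ modularFunctionFieldFullC k n := by
  change x ∈ IntermediateField.adjoin k (divisorExpansionsC k n) at hx
  induction hx using IntermediateField.adjoin_induction with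
  | mem x hx =>
    obtain ⟨d, hne, hd, rfl⟩ := hx
    rw [ModularCurve.coeffMap_qExpand, coeffMap_jqModC]
    exact jqModCd_mem_full k n hd
  | algebraMap a =>
    rw [coeffMap_algebraMap]
    exact IntermediateField.algebraMap_mem _ _
  | add x y _ _ hx hy => rw [map_add]; exact add_mem hx hy
  | inv x _ hx => rw [map_inv₀]; exact inv_mem hx
  | mul x y _ _ hx hy => rw [map_mul]; exact mul_mem hx hy

/-- The ring automorphism of `modularFunctionFieldFullC k n` "apply `f` to the coefficients". -/
def coeffRingAut (f : k ≃+* k) :
    modularFunctionFieldFullC k n ≃+* modularFunctionFieldFullC k n where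
  toFun x := ⟨coeffMap (f : k →+* k) (x : LaurentSeries k),
    coeffMap_mem_modularFunctionFieldFullC k n _ x.2⟩
  invFun x := ⟨coeffMap (f.symm : k →+* k) (x : LaurentSeries k),
    coeffMap_mem_modularFunctionFieldFullC k n _ x.2⟩
  left_inv x := Subtype.ext <| by
    show coeffMap (f.symm : k →+* k) (coeffMap (f : k →+* k) (x : LaurentSeries k))
      = (x : LaurentSeries k)
    rw [coeffMap_coeffMap,
      coeffMap_congr (g := RingHom.id k) (RingHom.ext fun a => f.symm_apply_apply a)
        (x : LaurentSeries k),
      coeffMap_id]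
  right_inv x := Subtype.ext <| by
    show coeffMap (f : k →+* k) (coeffMap (f.symm : k →+* k) (x : LaurentSeries k))
      = (x : LaurentSeries k)
    rw [coeffMap_coeffMap,
      coeffMap_congr (g := RingHom.id k) (RingHom.ext fun a => f.apply_symm_apply a)
        (x : LaurentSeries k),
      coeffMap_id]
  map_mul' x y :=
    Subtype.ext (map_mul (coeffMap (f : k →+* k)) (x : LaurentSeries k) (y : LaurentSeries k))
  map_add' x y :=
    Subtype.ext (map_add (coeffMap (f : k →+* k)) (x : LaurentSeries k) (y : LaurentSeries k))

@[simp]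
theorem coe_coeffRingAut_apply (f : k ≃+* k) (x : modularFunctionFieldFullC k n) :
    (coeffRingAut k n f x : LaurentSeries k) = coeffMap (f : k →+* k) (x : LaurentSeries k) :=
  rfl

theorem coeffRingAut_algebraMap (f : k ≃+* k) (a : k) :
    coeffRingAut k n f (algebraMap k (modularFunctionFieldFullC k n) a)
      = algebraMap k (modularFunctionFieldFullC k n) (f a) :=
  Subtype.ext (coeffMap_algebraMap (f : k →+* k) a)

/-- Ring automorphisms of the constant field act semilinearly on the mod-`ℓ` modular function
field (coefficientwise on `q`-expansions). -/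
def coeffSemilinearAut : (k ≃+* k) →* SemilinearAut k (modularFunctionFieldFullC k n) where
  toFun f := ⟨(coeffRingAut k n f, f), fun a => coeffRingAut_algebraMap k n f a⟩
  map_one' := by
    refine Subtype.ext (Prod.ext (RingEquiv.ext fun x => Subtype.ext ?_) rfl)
    show coeffMap ((1 : k ≃+* k) : k →+* k) (x : LaurentSeries k) = (x : LaurentSeries k)
    rw [show ((1 : k ≃+* k) : k →+* k) = RingHom.id k from RingHom.ext fun _ => rfl,
      coeffMap_id]
  map_mul' f g := by
    refine Subtype.ext (Prod.ext (RingEquiv.ext fun x => Subtype.ext ?_) rfl)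
    show coeffMap ((f * g : k ≃+* k) : k →+* k) (x : LaurentSeries k)
      = coeffMap (f : k →+* k) (coeffMap (g : k →+* k) (x : LaurentSeries k))
    rw [coeffMap_coeffMap]
    exact coeffMap_congr (RingHom.ext fun _ => rfl) _

@[simp]
theorem toRingAut_coeffSemilinearAut (f : k ≃+* k) :
    SemilinearAut.toRingAut (coeffSemilinearAut k n f) = coeffRingAut k n f :=
  rfl

@[simp]
theorem baseAut_coeffSemilinearAut (f : k ≃+* k) :
    SemilinearAut.baseAut (coeffSemilinearAut k n f) = f :=
  rfl

theorem coe_coeffSemilinearAut_smul (f : k ≃+* k) (x : modularFunctionFieldFullC k n) :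
    ((coeffSemilinearAut k n f • x : modularFunctionFieldFullC k n) : LaurentSeries k)
      = coeffMap (f : k →+* k) (x : LaurentSeries k) :=
  rfl

/-- `coeffSemilinearAut` is compatible with the level-raising inclusions. -/
theorem intertwines_inclusionC {N M : ℕ}
    (h : modularFunctionFieldFullC k N ≤ modularFunctionFieldFullC k M) (f : k ≃+* k) :
    SemilinearAut.IntertwinesAlong (IntermediateField.inclusion h).toRingHom
      (coeffSemilinearAut k N f) (coeffSemilinearAut k M f) := by
  intro x
  exact Subtype.ext rfl

end CoeffAut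

section FrobeniusAut

variable (k : Type*) [Field k] (n : ℕ) (ℓ : ℕ) [ExpChar k ℓ] [PerfectRing k ℓ]

/-- The coefficientwise Frobenius, as a semilinear automorphism of the mod-`ℓ` modular function
field over a perfect field of characteristic `ℓ`. -/
def frobeniusAut : SemilinearAut k (modularFunctionFieldFullC k n) :=
  coeffSemilinearAut k n (frobeniusEquiv k ℓ)

theorem coe_frobeniusAut_smul (x : modularFunctionFieldFullC k n) :
    ((frobeniusAut k n ℓ • x : modularFunctionFieldFullC k n) : LaurentSeries k)
      = coeffMap (frobenius k ℓ) (x : LaurentSeries k) :=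
  rfl

@[simp]
theorem baseAut_frobeniusAut :
    SemilinearAut.baseAut (frobeniusAut k n ℓ) = frobeniusEquiv k ℓ :=
  rfl

/-- `ord` is invariant: `ord_{Fr • v} (Fr • f) = ord_v f`. -/
theorem ord_frobeniusAut_smul (v : Place k (modularFunctionFieldFullC k n))
    (f : modularFunctionFieldFullC k n) :
    (frobeniusAut k n ℓ • v).ord (frobeniusAut k n ℓ • f) = v.ord f :=
  SemilinearAut.ord_smul _ v f

/-- `deg` is invariant. -/
theorem deg_frobeniusAut_smul (v : Place k (modularFunctionFieldFullC k n)) :
    (frobeniusAut k n ℓ • v).deg = v.deg :=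
  SemilinearAut.deg_smul _ v

end FrobeniusAut

section ReductionMembership

variable {K L : Type*} [Field K] [Field L] [Algebra K L] (A : ValuationSubring L)

/-- Reduction of `conjSeries`, for an arbitrary element of the decomposition group: apply the
induced automorphism of the residue field coefficientwise. -/
theorem coeffMap_residue_conjSeries (σ : A.decompositionSubgroup K) (y : LaurentSeries A) :
    coeffMap (residue A) (conjSeries A σ y)
      = coeffMap (MulSemiringAction.toRingHom (A.decompositionSubgroup K) (ResidueField A) σ)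
          (coeffMap (residue A) y) := by
  ext n
  rw [coeffMap_coeff, coeffMap_coeff, coeffMap_coeff, conjSeries_coeff, residue_decompHom]
  rfl

/-- `coeffMap f` is injective for injective `f`. -/
theorem coeffMap_injective {R S : Type*} [CommRing R] [CommRing S] {f : R →+* S}
    (hf : Function.Injective f) : Function.Injective (coeffMap f) := by
  intro x y hxy
  ext n
  apply hf
  rw [← coeffMap_coeff, ← coeffMap_coeff, hxy]

theorem coeffMap_residue_conjSeries_eq_zero_iff (σ : A.decompositionSubgroup K)
    (y : LaurentSeries A) :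
    coeffMap (residue A) (conjSeries A σ y) = 0 ↔ coeffMap (residue A) y = 0 := by
  rw [coeffMap_residue_conjSeries]
  exact map_eq_zero_iff _ (coeffMap_injective (RingHom.injective _))

/-- The reduction of `conjSeries A σ y` lies in the mod-`ℓ` modular function field if the
reduction of `y` does. -/
theorem coeffMap_residue_conjSeries_mem (n : ℕ) (σ : A.decompositionSubgroup K)
    (y : LaurentSeries A)
    (hy : coeffMap (residue A) y ∈ modularFunctionFieldFullC (ResidueField A) n) :
    coeffMap (residue A) (conjSeries A σ y) ∈ modularFunctionFieldFullC (ResidueField A) n := by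
  rw [coeffMap_residue_conjSeries]
  exact coeffMap_mem_modularFunctionFieldFullC _ n _ hy

/-- **Reduction intertwines a Frobenius lift with the coefficientwise Frobenius**, at the level of
elements of the mod-`ℓ` modular function field. -/
theorem frobeniusAut_smul_mk (n : ℕ) {Φ : L ≃ₐ[K] L} {ℓ : ℕ} [ExpChar (ResidueField A) ℓ]
    [PerfectRing (ResidueField A) ℓ] (h : A.IsFrobeniusAt Φ ℓ) (y : LaurentSeries A)
    (hy : coeffMap (residue A) y ∈ modularFunctionFieldFullC (ResidueField A) n) :
    frobeniusAut (ResidueField A) n ℓ •
        (⟨coeffMap (residue A) y, hy⟩ : modularFunctionFieldFullC (ResidueField A) n)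
      = ⟨coeffMap (residue A) (conjSeries A ⟨Φ, h.mem_decompositionSubgroup⟩ y),
          coeffMap_residue_conjSeries_mem A n _ y hy⟩ :=
  Subtype.ext (coeffMap_residue_conjSeries_of_isFrobeniusAt A h y).symm

end ReductionMembership

end Fermat.Agent.S37.Galois
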