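import Mathlib
import Fermat.Agent.S18.Gauss.Basic
import Fermat.Agent.S37.Galois.Reduction

/-!
# S37, leaf (Gal), part (c'): the decomposition group acts on the Gauss valuation

`A` a valuation subring of `L ⊇ K`, `σ` in the decomposition group of `A`.  The coefficientwise
action of `σ` on `L((q))` preserves Gauss integrality (`Basic.IsInt`: `x = P / Q`, `red Q ≠ 0`), and
on residues it is the coefficientwise action of the induced automorphism `σ̄` of the residue field:
the identity for `σ` in the inertia group, the coefficientwise Frobenius for a Frobenius lift.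

Field level: if `g : F →+* F` is compatible with `σ` along `φ : F →+* L((q))`, then `g` preserves
`Basic.gaussSubring`, units, and `resMap (g z) = coeffMap σ̄ (resMap z)`.
These are the fields `isU_I`, `res_I`, `isU_Φ`, `res_Φ` of `Key.Abstract.Interface`.
-/

set_option autoImplicit false

noncomputable section

open AlgebraicCurve ModularCurve IsLocalRing Fermat.Agent.S18.Gauss.Basic

namespace Fermat.Agent.S37.Galois

section Series

variable {K L : Type*} [Field K] [Field L] [Algebra K L] (A : ValuationSubring L)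

/-- The automorphism of the residue field induced by an element of the decomposition group,
as a ring homomorphism. -/
def resAut (σ : A.decompositionSubgroup K) : ResidueField A →+* ResidueField A :=
  MulSemiringAction.toRingHom (A.decompositionSubgroup K) (ResidueField A) σ

theorem resAut_apply (σ : A.decompositionSubgroup K) (x : ResidueField A) :
    resAut A σ x = σ • x :=
  rfl

theorem resAut_injective (σ : A.decompositionSubgroup K) : Function.Injective (resAut A σ) :=
  RingHom.injective _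

theorem resAut_of_mem_inertia {τ : A.decompositionSubgroup K} (hτ : τ ∈ A.inertiaSubgroup K) :
    resAut A τ = RingHom.id _ :=
  RingHom.ext fun x => smul_residueField_of_mem_inertia A hτ x

theorem resAut_of_isFrobeniusAt {Φ : L ≃ₐ[K] L} {ℓ : ℕ} [ExpChar (ResidueField A) ℓ]
    (h : A.IsFrobeniusAt Φ ℓ) :
    resAut A ⟨Φ, h.mem_decompositionSubgroup⟩ = frobenius (ResidueField A) ℓ :=
  RingHom.ext fun x => by rw [resAut_apply, h.smul_residue_eq, frobenius_def]

theorem incl_conjSeries (σ : A.decompositionSubgroup K) (P : LaurentSeries A) :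
    incl A (conjSeries A σ P) = coeffMap ((σ : L ≃ₐ[K] L) : L →+* L) (incl A P) :=
  coeffMap_subtype_conjSeries A σ P

theorem red_conjSeries (σ : A.decompositionSubgroup K) (P : LaurentSeries A) :
    red A (conjSeries A σ P) = coeffMap (resAut A σ) (red A P) :=
  coeffMap_residue_conjSeries A σ P

theorem red_conjSeries_ne_zero (σ : A.decompositionSubgroup K) {P : LaurentSeries A}
    (hP : red A P ≠ 0) : red A (conjSeries A σ P) ≠ 0 := fun h =>
  hP ((coeffMap_residue_conjSeries_eq_zero_iff A σ P).mp h)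

/-- Gauss integrality is preserved by the decomposition group. -/
theorem isInt_coeffMap (σ : A.decompositionSubgroup K) {x : LaurentSeries L}
    (hx : IsInt A x) : IsInt A (coeffMap ((σ : L ≃ₐ[K] L) : L →+* L) x) := by
  obtain ⟨P, Q, hQ, h⟩ := hx
  refine ⟨conjSeries A σ P, conjSeries A σ Q, red_conjSeries_ne_zero A σ hQ, ?_⟩
  rw [incl_conjSeries, incl_conjSeries, ← map_mul, h]

/-- On residues, the decomposition group acts coefficientwise through the residue field. -/
theorem res_coeffMap (σ : A.decompositionSubgroup K) (x : gaussRing A) :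
    res A ⟨coeffMap ((σ : L ≃ₐ[K] L) : L →+* L) (x : LaurentSeries L), isInt_coeffMap A σ x.2⟩
      = coeffMap (resAut A σ) (res A x) := by
  obtain ⟨P, Q, hQ, h⟩ := x.2
  rw [res_eq A x hQ h,
    res_eq A _ (P := conjSeries A σ P) (Q := conjSeries A σ Q) (red_conjSeries_ne_zero A σ hQ)
      (by rw [incl_conjSeries, incl_conjSeries, ← map_mul, h]),
    red_conjSeries, red_conjSeries, map_div₀]

/-- Inertia acts trivially on residues of Gauss-integral series. -/
theorem res_coeffMap_of_mem_inertia {τ : A.decompositionSubgroup K}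
    (hτ : τ ∈ A.inertiaSubgroup K) (x : gaussRing A) :
    res A ⟨coeffMap ((τ : L ≃ₐ[K] L) : L →+* L) (x : LaurentSeries L), isInt_coeffMap A τ x.2⟩
      = res A x := by
  rw [res_coeffMap, resAut_of_mem_inertia A hτ, coeffMap_id]

/-- A Frobenius lift acts as the coefficientwise Frobenius on residues of Gauss-integral
series. -/
theorem res_coeffMap_of_isFrobeniusAt {Φ : L ≃ₐ[K] L} {ℓ : ℕ} [ExpChar (ResidueField A) ℓ]
    (hΦ : A.IsFrobeniusAt Φ ℓ) (x : gaussRing A) :
    res A ⟨coeffMap (Φ : L →+* L) (x : LaurentSeries L),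
        isInt_coeffMap A ⟨Φ, hΦ.mem_decompositionSubgroup⟩ x.2⟩
      = coeffMap (frobenius (ResidueField A) ℓ) (res A x) := by
  rw [← resAut_of_isFrobeniusAt A hΦ]
  exact res_coeffMap A ⟨Φ, hΦ.mem_decompositionSubgroup⟩ x

end Series

section FieldLevel

variable {K L : Type*} [Field K] [Field L] [Algebra K L] {A : ValuationSubring L}
variable {F : Type*} [Field F] {φ : F →+* LaurentSeries L} (hφ : Scalable A φ)
variable (g : F →+* F) (σ : A.decompositionSubgroup K)
variable (hg : ∀ z : F, φ (g z) = coeffMap ((σ : L ≃ₐ[K] L) : L →+* L) (φ z))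

include hg

/-- A field endomorphism compatible with `σ ∈ D_A` preserves the Gauss valuation subring. -/
theorem map_mem_gaussSubring {z : F} (hz : z ∈ gaussSubring hφ) : g z ∈ gaussSubring hφ := by
  rw [mem_gaussSubring_iff] at hz ⊢
  rw [hg]
  exact isInt_coeffMap A σ hz

/-- ... and is `coeffMap σ̄` on residues. -/
theorem resMap_map (z : gaussSubring hφ) :
    resMap hφ ⟨g z, map_mem_gaussSubring hφ g σ hg z.2⟩
      = coeffMap (resAut A σ) (resMap hφ z) := by
  obtain ⟨P, Q, hQ, h⟩ := z.2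
  rw [resMap_eq hφ z hQ h,
    resMap_eq hφ _ (P := conjSeries A σ P) (Q := conjSeries A σ Q) (red_conjSeries_ne_zero A σ hQ)
      (by
        show φ (g z) * _ = _
        rw [hg, incl_conjSeries, incl_conjSeries, ← map_mul, h]),
    red_conjSeries, red_conjSeries, map_div₀]

/-- Gauss units are preserved. -/
theorem isUnit_map (z : gaussSubring hφ) (hz : IsUnit z) :
    IsUnit (⟨g z, map_mem_gaussSubring hφ g σ hg z.2⟩ : gaussSubring hφ) := by
  rw [isUnit_iff_resMap_ne_zero] at hz ⊢
  rw [resMap_map hφ g σ hg z]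
  exact fun h => hz ((map_eq_zero_iff _ (coeffMap_injective (resAut_injective A σ))).mp h)

theorem resMap_map_of_mem_inertia (hσ : σ ∈ A.inertiaSubgroup K) (z : gaussSubring hφ) :
    resMap hφ ⟨g z, map_mem_gaussSubring hφ g σ hg z.2⟩ = resMap hφ z := by
  rw [resMap_map hφ g σ hg z, resAut_of_mem_inertia A hσ, coeffMap_id]

omit hg in
theorem resMap_map_of_isFrobeniusAt {Φ : L ≃ₐ[K] L} {ℓ : ℕ} [ExpChar (ResidueField A) ℓ]
    (hΦ : A.IsFrobeniusAt Φ ℓ)
    (hg : ∀ z : F, φ (g z) = coeffMap (Φ : L →+* L) (φ z)) (z : gaussSubring hφ) :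
    resMap hφ ⟨g z, map_mem_gaussSubring hφ g ⟨Φ, hΦ.mem_decompositionSubgroup⟩ hg z.2⟩
      = coeffMap (frobenius (ResidueField A) ℓ) (resMap hφ z) := by
  rw [resMap_map hφ g ⟨Φ, hΦ.mem_decompositionSubgroup⟩ hg z, resAut_of_isFrobeniusAt A hΦ]

end FieldLevel

section SemilinearLevel

open scoped Pointwise

variable {K L : Type*} [Field K] [Field L] [Algebra K L] {A : ValuationSubring L}
variable {F : Type*} [Field F] [Algebra L F] {φ : F →+* LaurentSeries L} (hφ : Scalable A φ)
variable (g : SemilinearAut L F) (σ : A.decompositionSubgroup K)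
variable (hg : ∀ z : F, φ (g • z) = coeffMap ((σ : L ≃ₐ[K] L) : L →+* L) (φ z))

include hg

/-- compatibility of `g⁻¹` with `σ⁻¹`. -/
theorem compat_inv (z : F) :
    φ (g⁻¹ • z) = coeffMap (((σ⁻¹ : A.decompositionSubgroup K) : L ≃ₐ[K] L) : L →+* L) (φ z) := by
  have h1 := hg (g⁻¹ • z)
  rw [smul_inv_smul] at h1
  rw [h1, coeffMap_coeffMap]
  have h2 : ((((σ⁻¹ : A.decompositionSubgroup K) : L ≃ₐ[K] L) : L →+* L)).comp
      (((σ : L ≃ₐ[K] L) : L →+* L)) = RingHom.id L := by
    refine RingHom.ext fun a => ?_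
    show ((σ⁻¹ : A.decompositionSubgroup K) : L ≃ₐ[K] L) ((σ : L ≃ₐ[K] L) a) = a
    rw [Subgroup.coe_inv]
    exact (σ : L ≃ₐ[K] L).symm_apply_apply a
  rw [h2, coeffMap_id]

/-- A semilinear automorphism compatible with `σ ∈ D_A` preserves the Gauss valuation subring
(elementwise form). -/
theorem smul_mem_gaussSubring {z : F} (hz : z ∈ gaussSubring hφ) : g • z ∈ gaussSubring hφ :=
  map_mem_gaussSubring hφ (MulSemiringAction.toRingHom (SemilinearAut L F) F g) σ hg hz

/-- ... (set form) `g • O = O` for the Gauss valuation subring `O`. -/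
theorem smul_gaussSubring : g • gaussSubring hφ = gaussSubring hφ := by
  refine SetLike.ext fun x => ?_
  rw [ValuationSubring.mem_pointwise_smul_iff_inv_smul_mem]
  constructor
  · intro hx
    have := smul_mem_gaussSubring hφ g σ hg hx
    rwa [smul_inv_smul] at this
  · intro hx
    exact smul_mem_gaussSubring hφ g⁻¹ σ⁻¹ (compat_inv g σ hg) hx

/-- On residues `g` acts as `coeffMap σ̄`. -/
theorem resMap_smul (z : gaussSubring hφ) :
    resMap hφ ⟨g • (z : F), smul_mem_gaussSubring hφ g σ hg z.2⟩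
      = coeffMap (resAut A σ) (resMap hφ z) :=
  resMap_map hφ (MulSemiringAction.toRingHom (SemilinearAut L F) F g) σ hg z

/-- Gauss units are preserved. -/
theorem isUnit_smul (z : gaussSubring hφ) (hz : IsUnit z) :
    IsUnit (⟨g • (z : F), smul_mem_gaussSubring hφ g σ hg z.2⟩ : gaussSubring hφ) :=
  isUnit_map hφ (MulSemiringAction.toRingHom (SemilinearAut L F) F g) σ hg z hz

/-- Inertia: trivial on residues. -/
theorem resMap_smul_of_mem_inertia (hσ : σ ∈ A.inertiaSubgroup K) (z : gaussSubring hφ) :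
    resMap hφ ⟨g • (z : F), smul_mem_gaussSubring hφ g σ hg z.2⟩ = resMap hφ z :=
  resMap_map_of_mem_inertia hφ (MulSemiringAction.toRingHom (SemilinearAut L F) F g) σ hg hσ z

omit hg in
/-- Frobenius lift: coefficientwise Frobenius on residues. -/
theorem resMap_smul_of_isFrobeniusAt {Φ : L ≃ₐ[K] L} {ℓ : ℕ} [ExpChar (ResidueField A) ℓ]
    (hΦ : A.IsFrobeniusAt Φ ℓ)
    (hg : ∀ z : F, φ (g • z) = coeffMap (Φ : L →+* L) (φ z)) (z : gaussSubring hφ) :
    resMap hφ ⟨g • (z : F),
        smul_mem_gaussSubring hφ g ⟨Φ, hΦ.mem_decompositionSubgroup⟩ hg z.2⟩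
      = coeffMap (frobenius (ResidueField A) ℓ) (resMap hφ z) :=
  resMap_map_of_isFrobeniusAt hφ (MulSemiringAction.toRingHom (SemilinearAut L F) F g) hΦ hg z

end SemilinearLevel

section Modular

open scoped Pointwise

variable {L : Type*} [Field L] [Algebra ℚ L] {A : ValuationSubring L}
variable (F₀ : IntermediateField ℚ (LaurentSeries ℚ))
variable {φ : laurentBaseChange L F₀ →+* LaurentSeries L}
variable (hφv : ∀ x : laurentBaseChange L F₀, φ x = (x : LaurentSeries L)) (hφ : Scalable A φ)

include hφv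

/-- the arithmetic Galois action is compatible with `coeffMap` along the inclusion. -/
theorem compat_arithmeticGalois (σ : L ≃ₐ[ℚ] L) (z : laurentBaseChange L F₀) :
    φ (arithmeticGalois F₀ σ • z) = coeffMap (σ : L →+* L) (φ z) := by
  rw [hφv, hφv, coe_arithmeticGalois_smul]

/-- The decomposition group of `A` stabilises the Gauss valuation subring of `F₀ ⊗ L`. -/
theorem arithmeticGalois_smul_gaussSubring {σ : L ≃ₐ[ℚ] L}
    (hσ : σ ∈ A.decompositionSubgroup ℚ) :
    arithmeticGalois F₀ σ • gaussSubring hφ = gaussSubring hφ :=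
  smul_gaussSubring hφ (arithmeticGalois F₀ σ) ⟨σ, hσ⟩ (compat_arithmeticGalois F₀ hφv σ)

theorem arithmeticGalois_smul_mem_gaussSubring {σ : L ≃ₐ[ℚ] L}
    (hσ : σ ∈ A.decompositionSubgroup ℚ) {z : laurentBaseChange L F₀}
    (hz : z ∈ gaussSubring hφ) : arithmeticGalois F₀ σ • z ∈ gaussSubring hφ :=
  smul_mem_gaussSubring hφ (arithmeticGalois F₀ σ) ⟨σ, hσ⟩ (compat_arithmeticGalois F₀ hφv σ) hz

/-- `isU_I`/`isU_Φ`: Gauss units are preserved by the decomposition group. -/
theorem isUnit_arithmeticGalois_smul {σ : L ≃ₐ[ℚ] L}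
    (hσ : σ ∈ A.decompositionSubgroup ℚ) (z : gaussSubring hφ) (hz : IsUnit z) :
    IsUnit (⟨arithmeticGalois F₀ σ • (z : laurentBaseChange L F₀),
      arithmeticGalois_smul_mem_gaussSubring F₀ hφv hφ hσ z.2⟩ : gaussSubring hφ) :=
  isUnit_smul hφ (arithmeticGalois F₀ σ) ⟨σ, hσ⟩ (compat_arithmeticGalois F₀ hφv σ) z hz

/-- general `σ ∈ D_A`: the residue is transformed by `coeffMap σ̄`. -/
theorem resMap_arithmeticGalois_smul {σ : L ≃ₐ[ℚ] L}
    (hσ : σ ∈ A.decompositionSubgroup ℚ) (z : gaussSubring hφ) :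
    resMap hφ ⟨arithmeticGalois F₀ σ • (z : laurentBaseChange L F₀),
        arithmeticGalois_smul_mem_gaussSubring F₀ hφv hφ hσ z.2⟩
      = coeffMap (resAut A ⟨σ, hσ⟩) (resMap hφ z) :=
  resMap_smul hφ (arithmeticGalois F₀ σ) ⟨σ, hσ⟩ (compat_arithmeticGalois F₀ hφv σ) z

/-- `res_I`: inertia acts trivially on residues of Gauss-integral functions. -/
theorem resMap_arithmeticGalois_smul_of_mem_inertiaSubgroupIn {σ : L ≃ₐ[ℚ] L}
    (hσ : σ ∈ A.inertiaSubgroupIn ℚ) (z : gaussSubring hφ) :
    resMap hφ ⟨arithmeticGalois F₀ σ • (z : laurentBaseChange L F₀),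
        arithmeticGalois_smul_mem_gaussSubring F₀ hφv hφ
          (mem_decompositionSubgroup_of_mem_inertiaSubgroupIn A hσ) z.2⟩
      = resMap hφ z := by
  obtain ⟨τ, hτ, rfl⟩ := hσ
  exact resMap_smul_of_mem_inertia hφ (arithmeticGalois F₀ (τ : L ≃ₐ[ℚ] L)) τ
    (compat_arithmeticGalois F₀ hφv _) hτ z

/-- `res_Φ`: a Frobenius lift acts as the coefficientwise Frobenius on residues of
Gauss-integral functions. -/
theorem resMap_arithmeticGalois_smul_of_isFrobeniusAt {Φ : L ≃ₐ[ℚ] L} {ℓ : ℕ}
    [ExpChar (ResidueField A) ℓ] (hΦ : A.IsFrobeniusAt Φ ℓ) (z : gaussSubring hφ) :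
    resMap hφ ⟨arithmeticGalois F₀ Φ • (z : laurentBaseChange L F₀),
        arithmeticGalois_smul_mem_gaussSubring F₀ hφv hφ hΦ.mem_decompositionSubgroup z.2⟩
      = coeffMap (frobenius (ResidueField A) ℓ) (resMap hφ z) :=
  resMap_smul_of_isFrobeniusAt hφ (arithmeticGalois F₀ Φ) hΦ (compat_arithmeticGalois F₀ hφv Φ) z

end Modular

end Fermat.Agent.S37.Galois
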