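import Mathlib
import Fermat.Prelude.Def_ModularCurve_ArithmeticGalois
import Fermat.Prelude.Def_FLTPrelim_Ramification
import Fermat.Prelude.Def_EllipticCurve_FrobeniusTrace

/-!
# S37, leaf (Gal), supplement: rational functions are Galois-fixed; values transform by `σ`

`x ∈ F₀ ⊗ L` with rational `q`-coefficients (e.g. `J`, `J_d`) is fixed by the arithmetic Galois
action, constants are moved by `σ`; hence "`P` passes through the point `x = c`" is transported to
"`σ • P` passes through `x = σ c`":  `(σ • P).ord (x - σ c) = P.ord (x - c)`.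
On residues of constants: inertia fixes `c̄`, a Frobenius lift sends `c̄ ↦ c̄ ^ ℓ`.
(Definition-independent input for `jbar_I`, `jbar_Φ` of the support control (SC).)
-/

set_option autoImplicit false

noncomputable section

open AlgebraicCurve ModularCurve IsLocalRing

namespace Fermat.Agent.S37.Galois

section RationalFix

variable {L : Type*} [Field L] [Algebra ℚ L]
variable (F₀ : IntermediateField ℚ (LaurentSeries ℚ))

/-- Elements with rational `q`-coefficients are fixed by the arithmetic Galois action. -/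
theorem arithmeticGalois_smul_of_rational (σ : L ≃ₐ[ℚ] L) (x : laurentBaseChange L F₀)
    (y : LaurentSeries ℚ) (hxy : (x : LaurentSeries L) = coeffEmb L y) :
    arithmeticGalois F₀ σ • x = x := by
  refine Subtype.ext ?_
  rw [coe_arithmeticGalois_smul, hxy, coeffMap_coeffEmb]

/-- Constants are moved by `σ`. -/
theorem arithmeticGalois_smul_algebraMap (σ : L ≃ₐ[ℚ] L) (c : L) :
    arithmeticGalois F₀ σ • algebraMap L (laurentBaseChange L F₀) c
      = algebraMap L (laurentBaseChange L F₀) (σ c) :=
  SemilinearAut.smul_algebraMap _ c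

/-- `σ • (x - c) = x - σ c` for rational `x`. -/
theorem arithmeticGalois_smul_sub_algebraMap (σ : L ≃ₐ[ℚ] L) (x : laurentBaseChange L F₀)
    (y : LaurentSeries ℚ) (hxy : (x : LaurentSeries L) = coeffEmb L y) (c : L) :
    arithmeticGalois F₀ σ • (x - algebraMap L (laurentBaseChange L F₀) c)
      = x - algebraMap L (laurentBaseChange L F₀) (σ c) := by
  rw [smul_sub, arithmeticGalois_smul_of_rational F₀ σ x y hxy,
    arithmeticGalois_smul_algebraMap]

/-- **Values transform by `σ`**: `ord_{σ P} (x - σ c) = ord_P (x - c)` for rational `x`. -/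
theorem ord_smul_sub_algebraMap (σ : L ≃ₐ[ℚ] L) (x : laurentBaseChange L F₀)
    (y : LaurentSeries ℚ) (hxy : (x : LaurentSeries L) = coeffEmb L y) (c : L)
    (P : Place L (laurentBaseChange L F₀)) :
    (arithmeticGalois F₀ σ • P).ord (x - algebraMap L (laurentBaseChange L F₀) (σ c))
      = P.ord (x - algebraMap L (laurentBaseChange L F₀) c) := by
  rw [← arithmeticGalois_smul_sub_algebraMap F₀ σ x y hxy c]
  exact SemilinearAut.ord_smul _ P _

/-- Orders of rational functions are Galois-invariant: `ord_{σ P} x = ord_P x`. -/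
theorem ord_smul_of_rational (σ : L ≃ₐ[ℚ] L) (x : laurentBaseChange L F₀)
    (y : LaurentSeries ℚ) (hxy : (x : LaurentSeries L) = coeffEmb L y)
    (P : Place L (laurentBaseChange L F₀)) :
    (arithmeticGalois F₀ σ • P).ord x = P.ord x := by
  have h := SemilinearAut.ord_smul (arithmeticGalois F₀ σ) P x
  rwa [arithmeticGalois_smul_of_rational F₀ σ x y hxy] at h

end RationalFix

section ResidueOfConstants

variable {K L : Type*} [Field K] [Field L] [Algebra K L] (A : ValuationSubring L)

/-- The decomposition group preserves `A` (elementwise form). -/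
theorem apply_mem_of_mem_decompositionSubgroup {σ : L ≃ₐ[K] L}
    (hσ : σ ∈ A.decompositionSubgroup K) {c : L} (hc : c ∈ A) : σ c ∈ A :=
  ((⟨σ, hσ⟩ : A.decompositionSubgroup K) • (⟨c, hc⟩ : A)).2

theorem apply_mem_iff_of_mem_decompositionSubgroup {σ : L ≃ₐ[K] L}
    (hσ : σ ∈ A.decompositionSubgroup K) {c : L} : σ c ∈ A ↔ c ∈ A := by
  refine ⟨fun h => ?_, apply_mem_of_mem_decompositionSubgroup A hσ⟩
  have h2 := apply_mem_of_mem_decompositionSubgroup A
    ((A.decompositionSubgroup K).inv_mem hσ) h
  have h3 : σ⁻¹ (σ c) = c := σ.symm_apply_apply c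
  rwa [h3] at h2

/-- Inertia fixes residues of integral constants. -/
theorem residue_apply_of_mem_inertiaSubgroupIn {σ : L ≃ₐ[K] L}
    (hσ : σ ∈ A.inertiaSubgroupIn K) {c : L} (hc : c ∈ A)
    (hσc : σ c ∈ A) :
    residue A ⟨σ c, hσc⟩ = residue A ⟨c, hc⟩ := by
  obtain ⟨τ, hτ, rfl⟩ := hσ
  have h : MulSemiringAction.toRingAut (A.decompositionSubgroup K) (ResidueField A) τ = 1 := hτ
  have h2 : τ • residue A ⟨c, hc⟩ = residue A ⟨c, hc⟩ :=
    congrArg (fun e : ResidueField A ≃+* ResidueField A => e (residue A ⟨c, hc⟩)) h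
  exact (IsLocalRing.ResidueField.residue_smul (A.decompositionSubgroup K) τ (⟨c, hc⟩ : A)).trans h2

/-- A Frobenius lift raises residues of integral constants to the `ℓ`-th power. -/
theorem residue_apply_of_isFrobeniusAt {Φ : L ≃ₐ[K] L} {ℓ : ℕ}
    (hΦ : A.IsFrobeniusAt Φ ℓ) {c : L} (hc : c ∈ A) (hΦc : Φ c ∈ A) :
    residue A ⟨Φ c, hΦc⟩ = residue A ⟨c, hc⟩ ^ ℓ := by
  have h2 := hΦ.smul_residue_eq (residue A ⟨c, hc⟩)
  exact (IsLocalRing.ResidueField.residue_smul (A.decompositionSubgroup K)
    ⟨Φ, hΦ.mem_decompositionSubgroup⟩ (⟨c, hc⟩ : A)).trans h2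

end ResidueOfConstants

end Fermat.Agent.S37.Galois
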